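/-
MLT / [L2] / P1 (helper1), part 1: **Atkin–Lehner data over `ℚ̄` at the levels `K q`, `K q q`** (`q ∤ K`)
and the two function-level identities behind the dictionary "push-forwards ↔ `U_q`, `w_{q²}`":

* `mltj1AL2 : T2iAL ℚ̄ K q` (lead's `t2w`), `mltj1AL4 : T4iAL ℚ̄ K q` (lead's `t4w` for `Q = q * q`);
* `mltj1_finrank_alpha : [F_{K q q} : α F_{K q}] = q`;
* **(F1)** `mltj1_heckeU_eq : U_q y = α (N_β y)` for `y ∈ F_{K q q}` (`N_β` = the norm along
  `β = heckeBetaBar ℚ̄ (K q) q`), from helper7's product formula `t4vnNormB_eq_prod`;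
* **(F2)** `mltj1_normB_w : N_β (w_{q²} y) = w_q (N_α y)`.
-/
import Mathlib
import Fermat.Agent.Lib.T4.Inst.NormProd
import Fermat.Agent.Lib.T4.New.ProdBInst
import Fermat.Agent.Lib.T4.G.WU
import Fermat.Agent.Lib.T3.Hecke.Emb
import Fermat.Agent.Lib.T1.Kron.HeckeU

set_option autoImplicit false
set_option linter.unusedSectionVars false
set_option linter.unusedVariables false
set_option linter.style.haveILetI false
set_option synthInstance.maxHeartbeats 400000

open HahnSeries ModularCurve Fermat.Agent.T1 Fermat.Agent.T2 Fermat.Agent.T4 Fermat.Agent.S24Lib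
  IntermediateField Module

noncomputable section

namespace Fermat.Agent.MLT

local notation "Qb" => AlgebraicClosure ℚ

section AL

variable (K q : ℕ) [NeZero K] [hq : Fact q.Prime] (h : ¬ q ∣ K)

theorem mltj1_neZero_q : NeZero q := ⟨hq.out.ne_zero⟩

attribute [local instance] mltj1_neZero_q

/-- **the Atkin–Lehner data of level `K q` over `ℚ̄`** -/
def mltj1AL2 : T2iAL Qb K q where
  w := t2w Qb K q h
  w_alpha := t2w_alpha Qb K q h
  w_w := t2w_t2w Qb K q h

/-- `w_{q²}` over `ℚ̄` -/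
def mltj1W4 : ↥(TaF Qb (K * q * q)) ≃ₐ[Qb] ↥(TaF Qb (K * q * q)) :=
  t4w Qb (K * q * q) K (q * q) (t4g_lvl K q) (t4g_coprime K q h)

theorem mltj1W4_jd {d e e' : ℕ} (hd : d ∣ K) (he : e * e' = q * q) :
    mltj1W4 K q h (t2wJd Qb (K * q * q) (d * e) (t4w_dvd _ K (q * q) (t4g_lvl K q) hd he))
      = t2wJd Qb (K * q * q) (d * e') (t4w_dvd' _ K (q * q) (t4g_lvl K q) hd he) :=
  t4w_jd Qb (K * q * q) K (q * q) (t4g_lvl K q) (t4g_coprime K q h) hd he

/-- `w_{q²} ∘ α ∘ α = β ∘ β` over `ℚ̄` -/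
theorem mltj1W4_aa (f : ↥(TaF Qb K)) :
    mltj1W4 K q h (heckeAlphaBar Qb (K * q) q (heckeAlphaBar Qb K q f))
      = heckeBetaBar Qb (K * q) q (heckeBetaBar Qb K q f) := by
  have key :
      (((mltj1W4 K q h : ↥(TaF Qb (K * q * q)) ≃ₐ[Qb] _) :
          ↥(TaF Qb (K * q * q)) →+* ↥(TaF Qb (K * q * q))).comp
        (((heckeAlphaBar Qb (K * q) q).comp (heckeAlphaBar Qb K q) :
            ↥(TaF Qb K) →ₐ[Qb] _) : ↥(TaF Qb K) →+* ↥(TaF Qb (K * q * q))))
      = (((heckeBetaBar Qb (K * q) q).comp (heckeBetaBar Qb K q) :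
            ↥(TaF Qb K) →ₐ[Qb] _) : ↥(TaF Qb K) →+* ↥(TaF Qb (K * q * q))) := by
    apply t2w_ringHom_ext Qb K
    · intro c
      simp
    · intro d hd
      haveI : NeZero d := t2w_neZero_of_dvd K hd
      show mltj1W4 K q h (heckeAlphaBar _ (K * q) q (heckeAlphaBar _ K q (t2wJd Qb K d hd)))
        = heckeBetaBar _ (K * q) q (heckeBetaBar _ K q (t2wJd Qb K d hd))
      have he : 1 * (q * q) = q * q := one_mul _
      have h1 : heckeAlphaBar _ (K * q) q (heckeAlphaBar _ K q (t2wJd Qb K d hd))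
          = t2wJd Qb (K * q * q) (d * 1) (t4w_dvd _ K (q * q) (t4g_lvl K q) hd he) := by
        apply Subtype.ext
        haveI : NeZero (d * 1) := ⟨by rw [mul_one]; exact NeZero.ne d⟩
        rw [coe_heckeAlphaBar, coe_heckeAlphaBar, coe_t2wJd _ K d hd, coe_t2wJd _ _ (d * 1)]
        simp only [mul_one]
      rw [h1, mltj1W4_jd K q h hd he]
      apply Subtype.ext
      haveI : NeZero (d * (q * q)) :=
        ⟨Nat.mul_ne_zero (NeZero.ne d) (Nat.mul_ne_zero hq.out.ne_zero hq.out.ne_zero)⟩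
      rw [coe_heckeBetaBar, coe_heckeBetaBar, coe_t2wJd _ K d hd, coe_t2wJd _ _ (d * (q * q)),
        qExpand_qExpand, qExpand_qExpand]
      exact t4w_qExpand_congr _ _ (by ring) _
  exact RingHom.congr_fun key f

/-- `w_{q²} ∘ α ∘ β = α ∘ β` over `ℚ̄` -/
theorem mltj1W4_ab (f : ↥(TaF Qb K)) :
    mltj1W4 K q h (heckeAlphaBar Qb (K * q) q (heckeBetaBar Qb K q f))
      = heckeAlphaBar Qb (K * q) q (heckeBetaBar Qb K q f) := by
  have key :
      (((mltj1W4 K q h : ↥(TaF Qb (K * q * q)) ≃ₐ[Qb] _) :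
          ↥(TaF Qb (K * q * q)) →+* ↥(TaF Qb (K * q * q))).comp
        (((heckeAlphaBar Qb (K * q) q).comp (heckeBetaBar Qb K q) :
            ↥(TaF Qb K) →ₐ[Qb] _) : ↥(TaF Qb K) →+* ↥(TaF Qb (K * q * q))))
      = (((heckeAlphaBar Qb (K * q) q).comp (heckeBetaBar Qb K q) :
            ↥(TaF Qb K) →ₐ[Qb] _) : ↥(TaF Qb K) →+* ↥(TaF Qb (K * q * q))) := by
    apply t2w_ringHom_ext Qb K
    · intro c
      simp
    · intro d hd
      haveI : NeZero d := t2w_neZero_of_dvd K hd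
      show mltj1W4 K q h (heckeAlphaBar _ (K * q) q (heckeBetaBar _ K q (t2wJd Qb K d hd)))
        = heckeAlphaBar _ (K * q) q (heckeBetaBar _ K q (t2wJd Qb K d hd))
      have he : q * q = q * q := rfl
      have h1 : heckeAlphaBar _ (K * q) q (heckeBetaBar _ K q (t2wJd Qb K d hd))
          = t2wJd Qb (K * q * q) (d * q) (t4w_dvd _ K (q * q) (t4g_lvl K q) hd he) := by
        apply Subtype.ext
        haveI : NeZero (d * q) := ⟨Nat.mul_ne_zero (NeZero.ne d) hq.out.ne_zero⟩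
        rw [coe_heckeAlphaBar, coe_heckeBetaBar, coe_t2wJd _ K d hd, coe_t2wJd _ _ (d * q),
          qExpand_qExpand]
        exact t4w_qExpand_congr _ _ (by ring) _
      rw [h1, mltj1W4_jd K q h hd he]
  exact RingHom.congr_fun key f

/-- **the Atkin–Lehner data of level `K q q` over `ℚ̄`** -/
def mltj1AL4 : T4iAL Qb K q where
  w := mltj1W4 K q h
  w_aa := mltj1W4_aa K q h
  w_ab := mltj1W4_ab K q h
  w_w := t4w_t4w Qb (K * q * q) K (q * q) (t4g_lvl K q) (t4g_coprime K q h)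

end AL

section Finrank

attribute [local instance] mltj1_neZero_q

variable (N ℓ : ℕ) [NeZero N] [hℓ : Fact ℓ.Prime]

/-- `[F_{N ℓ} : α F_N] = ℓ` for a prime `ℓ ∣ N` -/
theorem mltj1_finrank_alpha_of_dvd (hdvd : ℓ ∣ N) :
    @Module.finrank ↥(TaF Qb N) ↥(TaF Qb (N * ℓ)) _ _
      (@Algebra.toModule _ _ _ _ (t2iAlgebra Qb N ℓ)) = ℓ := by
  letI := t2iAlgebra Qb N ℓ
  show finrank ↥(modularFunctionFieldBar N) ↥(modularFunctionFieldBar (N * ℓ)) = ℓ
  set K₀ : IntermediateField Qb ↥(modularFunctionFieldBar N) := Qb⟮jBar N⟯ with hK₀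
  letI : Algebra K₀ ↥(modularFunctionFieldBar (N * ℓ)) :=
    ((heckeAlphaBar Qb N ℓ).toRingHom.comp (algebraMap K₀ ↥(modularFunctionFieldBar N))).toAlgebra
  haveI : IsScalarTower K₀ ↥(modularFunctionFieldBar N) ↥(modularFunctionFieldBar (N * ℓ)) :=
    IsScalarTower.of_algebraMap_eq (fun _ => rfl)
  have h1 : finrank K₀ ↥(modularFunctionFieldBar N)
      * finrank ↥(modularFunctionFieldBar N) ↥(modularFunctionFieldBar (N * ℓ))
      = finrank K₀ ↥(modularFunctionFieldBar (N * ℓ)) :=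
    Module.finrank_mul_finrank K₀ _ _
  have hmap : K₀.map (heckeAlphaBar Qb N ℓ) = Qb⟮jBar (N * ℓ)⟯ := by
    rw [hK₀, IntermediateField.adjoin_map, Set.image_singleton, Fermat.Agent.T3.t3k_alpha_jBar]
  let i : K₀ ≃ₐ[Qb] Qb⟮jBar (N * ℓ)⟯ :=
    (K₀.equivMap (heckeAlphaBar Qb N ℓ)).trans (IntermediateField.equivOfEq hmap)
  have h2 : finrank K₀ ↥(modularFunctionFieldBar (N * ℓ))
      = finrank Qb⟮jBar (N * ℓ)⟯ ↥(modularFunctionFieldBar (N * ℓ)) := by
    refine Algebra.finrank_eq_of_equiv_equiv i.toRingEquiv (RingEquiv.refl _) ?_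
    ext z
    rfl
  rw [h2, S24Lib.finrank_jBar, S24Lib.finrank_jBar,
    Fermat.Agent.Igusa.igPsi_mul_prime_of_dvd hℓ.out (NeZero.ne N) hdvd] at h1
  have hpos : 0 < dedekindPsi N := Fermat.Agent.Igusa.igPsi_pos (NeZero.ne N)
  exact Nat.eq_of_mul_eq_mul_left hpos h1

end Finrank

section Formulas

attribute [local instance] mltj1_neZero_q

variable (K q : ℕ) [NeZero K] [hq : Fact q.Prime] (h : ¬ q ∣ K)

include h in
/-- **(F1)** `U_q y = α (N_β y)` on the function field of level `K q q` over `ℚ̄` -/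
theorem mltj1_heckeU_eq (y : ↥(modularFunctionFieldBar (K * q * q))) :
    tkrHeckeU (K * q * q) q y
      = heckeAlphaBar Qb (K * q) q (t4nNormB Qb (K * q) q y) := by
  obtain ⟨ζ, hζ, -⟩ := tkr_exists_zeta q
  have hζq : ζ ^ q = 1 := by
    apply Units.ext
    rw [Units.val_pow_eq_pow_val]
    exact hζ.pow_eq_one
  have hζ1 : ζ ≠ 1 := by
    intro h1
    have h2 : (ζ : Qb) = 1 := by rw [h1]; rfl
    have := hζ.eq_orderOf
    rw [h2, orderOf_one] at this
    exact hq.out.one_lt.ne' this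
  have key := t4vnNormB_eq_prod (L := Qb) (L' := Qb) (ζ := ζ) (mltj1AL4 K q h) (mltj1AL2 K q h)
    hq.out hζq hζ1 (mltj1_finrank_alpha_of_dvd (K * q) q (Dvd.intro_left K rfl)) y
  have hid : algebraMap Qb Qb = RingHom.id Qb := rfl
  rw [hid, coeffMap_id, coeffMap_id] at key
  refine tkrHeckeU_eq_of_spec hq.out (Dvd.intro_left (K * q) rfl) hζ y _ ?_
  rw [coe_heckeAlphaBar]
  have hR : ∀ b ∈ Finset.range q,
      tkrTw (ζ ^ b) ((y : ↥(modularFunctionFieldBar (K * q * q))) : LaurentSeries Qb)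
        = t4vSig (ζ ^ b) ((y : ↥(modularFunctionFieldBar (K * q * q))) : LaurentSeries Qb) :=
    fun b _ => t4vn_tkrTw_eq _ _
  rw [← Finset.prod_range (fun b => tkrTw (ζ ^ b)
    ((y : ↥(modularFunctionFieldBar (K * q * q))) : LaurentSeries Qb)), Finset.prod_congr rfl hR,
    ← key]
  rfl

/-- `w_{q²} ∘ α = β ∘ w_q` on the function field of level `K q` -/
theorem mltj1_w_alpha (g : ↥(modularFunctionFieldBar (K * q))) :
    mltj1W4 K q h (heckeAlphaBar Qb (K * q) q g) = heckeBetaBar Qb (K * q) q (t2w Qb K q h g) :=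
  t4vn_w_alpha (mltj1AL4 K q h) (mltj1AL2 K q h) hq.out g

/-- **(F2)** `N_β (w_{q²} y) = w_q (N_α y)` -/
theorem mltj1_normB_w (y : ↥(modularFunctionFieldBar (K * q * q))) :
    t4nNormB Qb (K * q) q (mltj1W4 K q h y) = t2w Qb K q h (t4nNormA Qb (K * q) q y) :=
  t4n_normB_w Qb (K * q) q (mltj1W4 K q h).toRingEquiv (t2w Qb K q h).toRingEquiv
    (mltj1_w_alpha K q h) y

/-- `U_q (w_{q²} y) = α (w_q (N_α y))` -/
theorem mltj1_heckeU_w_eq (y : ↥(modularFunctionFieldBar (K * q * q))) :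
    tkrHeckeU (K * q * q) q (mltj1W4 K q h y)
      = heckeAlphaBar Qb (K * q) q (t2w Qb K q h (t4nNormA Qb (K * q) q y)) := by
  rw [mltj1_heckeU_eq K q h, mltj1_normB_w]

end Formulas

end Fermat.Agent.MLT
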