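/-
MLT / [L2] / P1 (helper1), part 2: **the dictionary `J₀(K q q)[m]` ↔ Kummer functions over `ℚ̄`** and
**`mltj1_geom : MltL2Geom`** (helper9's contract `Lib/MLT/Contracts/L2Split.lean`) from T4's
`t4nsc_new : T4New t4gWU`.

For a Kummer function `y` of level `K q q` (all orders divisible by `m`):
* `mltj1_inertia`: `σ [y] = [y]` ⟹ `σ y = y t^m`;
* `mltj1_pushB`: `β_* [y] = 0` ⟹ `N_β y = s^m` ⟹ `U_q y = (α s)^m`;
* `mltj1_pushA`: `α_* [y] = 0` ⟹ `N_α y = s^m` ⟹ `U_q (w_{q²} y) = (α (w_q s))^m`;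
* `mltj1_nsmul_class`: `y^n = t^m` ⟹ `n • [y] = 0`.
-/
import Mathlib
import Fermat.Agent.Lib.MLT.L2.P1.ALQb
import Fermat.Agent.Lib.MLT.Contracts.L2Split
import Fermat.Agent.Lib.T4.New.StepCFixU
import Fermat.Agent.Lib.Alpha.Tate.Kummer

set_option autoImplicit false
set_option linter.unusedSectionVars false
set_option linter.unusedVariables false
set_option linter.style.haveILetI false
set_option synthInstance.maxHeartbeats 400000

open HahnSeries ModularCurve AlgebraicCurve Fermat.Agent.T1 Fermat.Agent.T2 Fermat.Agent.T4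
  Fermat.Agent.S24Lib Fermat.Agent.Delta Fermat.Agent.T3 Fermat.Agent.Alpha

noncomputable section

namespace Fermat.Agent.MLT

local notation "Qb" => AlgebraicClosure ℚ
local notation "GQ" => (AlgebraicClosure ℚ ≃ₐ[ℚ] AlgebraicClosure ℚ)

section Class

variable (N : ℕ) [NeZero N] {m : ℕ} (hm : m ≠ 0)

/-- a Galois-fixed Kummer class: `σ [y] = [y]` ⟹ `σ y = y t^m` -/
theorem mltj1_inertia (y : (↥(modularFunctionFieldBar N))ˣ)
    (hy : ∀ v : Place Qb ↥(modularFunctionFieldBar N),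
      (m : ℤ) ∣ v.ord (y : ↥(modularFunctionFieldBar N)))
    (σ : GQ) (hσ : σ • alpfClass hm y hy = alpfClass hm y hy) :
    ∃ t : (↥(modularFunctionFieldBar N))ˣ, tkrSig N σ y = y * t ^ m := by
  have hyW : y ∈ tWsub Qb N m := hy
  have hσW : tkrSig N σ y ∈ tWsub Qb N m := by
    rw [alpt_tkrSig_eq]
    exact alpf_dvd_smulUnit (arithmeticGalois (modularFunctionFieldFull N) σ) hy
  have hσ' : alpfClass hm (tkrSig N σ y) hσW = alpfClass hm y hy := by
    rw [← hσ, galois_smul_pic0_def, alpfClass_smul hm]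
    congr 1
  have hzW : y⁻¹ * tkrSig N σ y ∈ tWsub Qb N m :=
    (tWsub Qb N m).mul_mem ((tWsub Qb N m).inv_mem hyW) hσW
  have hmul : y * (y⁻¹ * tkrSig N σ y) = tkrSig N σ y := by
    rw [mul_inv_cancel_left]
  have h1 := alpfClass_mul hm y (y⁻¹ * tkrSig N σ y) hy hzW (by rw [hmul]; exact hσW)
  have h2 : alpfClass hm (y * (y⁻¹ * tkrSig N σ y)) (by rw [hmul]; exact hσW)
      = alpfClass hm (tkrSig N σ y) hσW := by
    congr 1
  rw [h2, hσ'] at h1
  have h3 : alpfClass hm (y⁻¹ * tkrSig N σ y) hzW = 0 := by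
    have := h1
    exact (add_eq_left.mp this.symm)
  obtain ⟨t, ht⟩ := (alpt_kummer_ker N m hm _ hzW).mp h3
  exact ⟨t, by rw [← ht, mul_inv_cancel_left]⟩

/-- `y^n = t^m` ⟹ `n • [y] = 0` -/
theorem mltj1_nsmul_class (y : (↥(modularFunctionFieldBar N))ˣ)
    (hy : ∀ v : Place Qb ↥(modularFunctionFieldBar N),
      (m : ℤ) ∣ v.ord (y : ↥(modularFunctionFieldBar N)))
    (n : ℕ) (h : ∃ t : (↥(modularFunctionFieldBar N))ˣ, y ^ n = t ^ m) :
    n • alpfClass hm y hy = 0 := by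
  obtain ⟨t, ht⟩ := h
  set Y : tWsub Qb N m := ⟨y, hy⟩ with hY
  have h1 : alptKumW N m hm (Y ^ n) = 1 := by
    rw [alptKumW_eq_one_iff, mem_tdmPowSub]
    exact ⟨t, ht.symm⟩
  rw [map_pow] at h1
  have h2 := congrArg (fun z => ((Multiplicative.toAdd z :
    ↥(Submodule.torsionBy ℤ (JZero N) (m : ℤ))) : JZero N)) h1
  simp only [toAdd_pow, toAdd_one, ZeroMemClass.coe_zero] at h2
  exact h2

end Class

section Push

attribute [local instance] mltj1_neZero_q

variable (K q : ℕ) [NeZero K] [hq : Fact q.Prime] (h : ¬ q ∣ K) {m : ℕ} (hm : m ≠ 0)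

include h in
/-- `β_* [y] = 0` ⟹ `N_β y` is an `m`-th power ⟹ `U_q y` is an `m`-th power -/
theorem mltj1_pushB (y : (↥(modularFunctionFieldBar (K * q * q)))ˣ)
    (hy : ∀ v : Place Qb ↥(modularFunctionFieldBar (K * q * q)),
      (m : ℤ) ∣ v.ord (y : ↥(modularFunctionFieldBar (K * q * q))))
    (hB : dlwPushB (K * q) q (alpfClass hm y hy) = 0) :
    ∃ t : (↥(modularFunctionFieldBar (K * q * q)))ˣ, tkrHeckeUUnits (K * q * q) q y = t ^ m := by
  unfold dlwPushB at hB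
  rw [dlwPushAlong_class _ _ _ _ hm y hy] at hB
  obtain ⟨s, hs⟩ := (alpt_kummer_ker (K * q) m hm _ _).mp hB
  refine ⟨Units.map ((heckeAlphaBar Qb (K * q) q : ↥(modularFunctionFieldBar (K * q)) →ₐ[Qb]
    ↥(modularFunctionFieldBar (K * q * q))) : ↥(modularFunctionFieldBar (K * q)) →*
    ↥(modularFunctionFieldBar (K * q * q))) s, ?_⟩
  apply Units.ext
  rw [tkrHeckeUUnits_coe, mltj1_heckeU_eq K q h, Units.val_pow_eq_pow_val, Units.coe_map]
  have h1 : t4nNormB Qb (K * q) q (y : ↥(modularFunctionFieldBar (K * q * q)))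
      = ((dlwNormUnit (heckeBetaBar Qb (K * q) q) (t3h_betaFinite (K * q) q) y :
          (↥(modularFunctionFieldBar (K * q)))ˣ) : ↥(modularFunctionFieldBar (K * q))) := rfl
  rw [h1, hs, Units.val_pow_eq_pow_val, map_pow]
  rfl

include h in
/-- `α_* [y] = 0` ⟹ `N_α y` is an `m`-th power ⟹ `U_q (w_{q²} y)` is an `m`-th power -/
theorem mltj1_pushA (y : (↥(modularFunctionFieldBar (K * q * q)))ˣ)
    (hy : ∀ v : Place Qb ↥(modularFunctionFieldBar (K * q * q)),
      (m : ℤ) ∣ v.ord (y : ↥(modularFunctionFieldBar (K * q * q))))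
    (hA : dlwPushA (K * q) q (alpfClass hm y hy) = 0) :
    ∃ t : (↥(modularFunctionFieldBar (K * q * q)))ˣ,
      tkrHeckeUUnits (K * q * q) q (t4gWU K q h y) = t ^ m := by
  unfold dlwPushA at hA
  rw [dlwPushAlong_class _ _ _ _ hm y hy] at hA
  obtain ⟨s, hs⟩ := (alpt_kummer_ker (K * q) m hm _ _).mp hA
  refine ⟨Units.map ((heckeAlphaBar Qb (K * q) q : ↥(modularFunctionFieldBar (K * q)) →ₐ[Qb]
    ↥(modularFunctionFieldBar (K * q * q))) : ↥(modularFunctionFieldBar (K * q)) →*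
    ↥(modularFunctionFieldBar (K * q * q)))
    (Units.map ((t2w Qb K q h : ↥(modularFunctionFieldBar (K * q)) ≃ₐ[Qb]
      ↥(modularFunctionFieldBar (K * q))) : ↥(modularFunctionFieldBar (K * q)) →*
      ↥(modularFunctionFieldBar (K * q))) s), ?_⟩
  apply Units.ext
  have h0 : ((t4gWU K q h y : (↥(modularFunctionFieldBar (K * q * q)))ˣ) :
      ↥(modularFunctionFieldBar (K * q * q)))
      = mltj1W4 K q h (y : ↥(modularFunctionFieldBar (K * q * q))) := rfl
  rw [tkrHeckeUUnits_coe, h0, mltj1_heckeU_w_eq K q h, Units.val_pow_eq_pow_val, Units.coe_map,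
    Units.coe_map]
  have h1 : t4nNormA Qb (K * q) q (y : ↥(modularFunctionFieldBar (K * q * q)))
      = ((dlwNormUnit (heckeAlphaBar Qb (K * q) q) (t3h_alphaFinite (K * q) q) y :
          (↥(modularFunctionFieldBar (K * q)))ˣ) : ↥(modularFunctionFieldBar (K * q))) := rfl
  rw [h1, hs, Units.val_pow_eq_pow_val, map_pow, map_pow]
  rfl

end Push

/-- **[L2-Geom]**: the statement (NEW) of T4 on `J₀(K q²)` -/
theorem mltj1_geom : MltL2Geom := by
  intro p hp K q _ _ hq hqp hK A hA x hpx hI hPA hPB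
  haveI : Fact q.Prime := ⟨hq⟩
  haveI : NeZero K := ⟨fun h0 => NeZero.ne (K * q) (by rw [h0, zero_mul])⟩
  have hp0 : p ≠ 0 := hp.ne_zero
  obtain ⟨y, hy, rfl⟩ := alpf_exists_class hp0 x (by rw [natCast_zsmul]; exact hpx)
  have hcop : Nat.Coprime p q := (Nat.coprime_primes hp hq).mpr (Ne.symm hqp)
  refine mltj1_nsmul_class (K * q * q) hp0 y hy _ ?_
  exact t4nsc_new K q hK A hA p hcop hp0 y hy
    (fun σ hσ => mltj1_inertia (K * q * q) hp0 y hy σ (hI σ hσ))
    (mltj1_pushB K q hK hp0 y hy hPB) (mltj1_pushA K q hK hp0 y hy hPA)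

end Fermat.Agent.MLT
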