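/-
MLT / [L2] / P1 (helper1), part 3: **the dictionary `J₀(K q q)[m]` ↔ Kummer functions in the level field**
`F = tbLevF 𝔓 (K q q) ⊤` over the inertia field `L = ℚ̄^I` (`q = 𝔓.p ∤ K`, `gcd(m, q) = 1`).

* `mltj1PhiU 𝔓 N : (tbLevF 𝔓 N ⊤)ˣ →* (modularFunctionFieldBar N)ˣ` (`= Units.map tbPhiF`; verbatim the same
  body as helper7's `mltl2PhiU`);
* **`mltj1_dict`**: a class `x ∈ J₀(K q q)[m]` which is fixed by the inertia group `𝔓.I` and killed by the two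
  push-forwards to the level `K q` is the Kummer class `[div(Φ y)/m]` of a unit `y` of `F` which satisfies
  EXACTLY the four hypotheses of `T4nCoreAt 𝔓 K h` (`Lib/T4/New/CoreDefs.lean`):
  `y ∈ tWsub L (K q q) m`, `m ∣ ord_P (Φ y)` for all places `P` of `F_ℚ̄`,
  `N_β y = c • s^m`, `N_β (w_{q²} y) = c' • s'^m`  (`c, c' ∈ L^×`, `s, s' ∈ F_{K q}^×` over `L`);
* `mltj1_dict_A`: the same with `N_α y = c' • s'^m` as fourth condition (the form used by steps A + B);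
* `mltj1_class_eq_zero`: conversely `y = c • t^m` ⟹ `[div(Φ y)/m] = 0`.
-/
import Mathlib
import Fermat.Agent.Lib.MLT.L2.P1.Geom
import Fermat.Agent.Lib.T4.New.Reduce
import Fermat.Agent.Lib.T4.New.CoreOf
import Fermat.Agent.Lib.T4.New.InstFix
import Fermat.Agent.Lib.T4.New.ProdBInst
import Fermat.Agent.Lib.T4.Reg.UnrCfeInst

set_option autoImplicit false
set_option linter.unusedSectionVars false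
set_option linter.unusedVariables false
set_option linter.style.haveILetI false
set_option synthInstance.maxHeartbeats 400000

open HahnSeries ModularCurve AlgebraicCurve Fermat.Agent.T1 Fermat.Agent.T2 Fermat.Agent.T4
  Fermat.Agent.TW Fermat.Agent.S24Lib Fermat.Agent.Delta Fermat.Agent.T3 Fermat.Agent.Alpha

noncomputable section

namespace Fermat.Agent.MLT

local notation "Qb" => AlgebraicClosure ℚ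
local notation "GQ" => (AlgebraicClosure ℚ ≃ₐ[ℚ] AlgebraicClosure ℚ)

section Defs

variable (𝔓 : FFPlace)

/-- the image over `ℚ̄` of a unit of the function field of level `N` over the inertia field -/
def mltj1PhiU (N : ℕ) [NeZero N] : (↥(tbLevF 𝔓 N ⊤))ˣ →* (↥(modularFunctionFieldBar N))ˣ :=
  Units.map ((tbPhiF 𝔓 N ⊤ : ↥(tbLevF 𝔓 N ⊤) →+* ↥(modularFunctionFieldBar N)) :
    ↥(tbLevF 𝔓 N ⊤) →* ↥(modularFunctionFieldBar N))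

theorem coe_mltj1PhiU (N : ℕ) [NeZero N] (y : (↥(tbLevF 𝔓 N ⊤))ˣ) :
    ((mltj1PhiU 𝔓 N y : (↥(modularFunctionFieldBar N))ˣ) : ↥(modularFunctionFieldBar N)) =
      tbPhiF 𝔓 N ⊤ (y : ↥(tbLevF 𝔓 N ⊤)) := rfl

/-- conversely: a constant times an `m`-th power has trivial Kummer class -/
theorem mltj1_class_eq_zero (N : ℕ) [NeZero N] {m : ℕ} (hm : m ≠ 0) (y : (↥(tbLevF 𝔓 N ⊤))ˣ)
    (hy : ∀ P : Place Qb ↥(modularFunctionFieldBar N),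
      (m : ℤ) ∣ P.ord ((mltj1PhiU 𝔓 N y : (↥(modularFunctionFieldBar N))ˣ) :
        ↥(modularFunctionFieldBar N)))
    (h : ∃ (c : ↥(tbFix 𝔓 ⊤)) (t : ↥(tbLevF 𝔓 N ⊤)), (y : ↥(tbLevF 𝔓 N ⊤)) = c • t ^ m) :
    alpfClass hm (mltj1PhiU 𝔓 N y) hy = 0 := by
  obtain ⟨c, t, hct⟩ := h
  rw [alpt_kummer_ker N m hm]
  obtain ⟨d, hd⟩ := IsAlgClosed.exists_pow_nat_eq ((c : ↥(tbFix 𝔓 ⊤)) : Qb) (Nat.pos_of_ne_zero hm)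
  have hkey : ((mltj1PhiU 𝔓 N y : (↥(modularFunctionFieldBar N))ˣ) : ↥(modularFunctionFieldBar N))
      = (d • tbPhiF 𝔓 N ⊤ t) ^ m := by
    rw [coe_mltj1PhiU, hct, tbPhiF_smul, map_pow, smul_pow, hd]
  have hne : d • tbPhiF 𝔓 N ⊤ t ≠ 0 := by
    intro h0
    rw [h0, zero_pow hm] at hkey
    exact (mltj1PhiU 𝔓 N y).ne_zero hkey
  refine ⟨Units.mk0 _ hne, ?_⟩
  apply Units.ext
  rw [Units.val_pow_eq_pow_val, Units.val_mk0]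
  exact hkey

end Defs

section Main

/-- **descent to the inertia field**: an `m`-torsion class of `J₀(N)` fixed by the inertia group is the Kummer
class of a unit of the function field over the inertia field -/
theorem mltj1_descend (𝔓 : FFPlace) (N : ℕ) [NeZero N] {m : ℕ} (hm : m ≠ 0)
    (x : JZero N) (hx : m • x = 0) (hI : ∀ σ ∈ 𝔓.I, σ • x = x) :
    ∃ y : (↥(tbLevF 𝔓 N ⊤))ˣ,
      y ∈ tWsub ↥(tbFix 𝔓 ⊤) N m ∧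
      ∃ hy : ∀ P : Place Qb ↥(modularFunctionFieldBar N),
          (m : ℤ) ∣ P.ord ((mltj1PhiU 𝔓 N y : (↥(modularFunctionFieldBar N))ˣ) :
            ↥(modularFunctionFieldBar N)),
        alpfClass hm (mltj1PhiU 𝔓 N y) hy = x := by
  obtain ⟨Y, hY, rfl⟩ := alpf_exists_class hm x (by rw [natCast_zsmul]; exact hx)
  obtain ⟨s, f, hf⟩ := t4d_descend 𝔓 N hm Y
    (fun σ hσ => mltj1_inertia N hm Y hY σ (hI σ hσ))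
  set Y' : (↥(modularFunctionFieldBar N))ˣ := Y * s ^ m with hY'def
  have hsW : s ^ m ∈ tWsub Qb N m := tkr_pow_mem_tWsub N m s
  have hY' : Y' ∈ tWsub Qb N m := (tWsub Qb N m).mul_mem hY hsW
  have hcl : alpfClass hm Y' hY' = alpfClass hm Y hY := by
    rw [alpfClass_mul hm Y (s ^ m) hY hsW hY', alpfClass_pow hm s hsW, add_zero]
  have hf0 : f ≠ 0 := by
    rintro rfl
    rw [map_zero] at hf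
    exact Y'.ne_zero hf.symm
  set fu : (↥(tbLevF 𝔓 N ⊤))ˣ := Units.mk0 f hf0 with hfu
  have hfu' : mltj1PhiU 𝔓 N fu = Y' := Units.ext hf
  have hfW : fu ∈ tWsub ↥(tbFix 𝔓 ⊤) N m :=
    t4n_mem_tWsub_of_cfe 𝔓 ⊤ N (t4ru_T4nCFE 𝔓 ⊤ N) m Y' hY' fu hf
  have hfQ : ∀ P : Place Qb ↥(modularFunctionFieldBar N),
      (m : ℤ) ∣ P.ord ((mltj1PhiU 𝔓 N fu : (↥(modularFunctionFieldBar N))ˣ) :
          ↥(modularFunctionFieldBar N)) := by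
    rw [hfu']
    exact hY'
  refine ⟨fu, hfW, hfQ, ?_⟩
  rw [← hcl]
  exact dlw_class_congr hm hfu' _ _

variable (𝔓 : FFPlace) (K : ℕ) [NeZero K] (h : ¬ 𝔓.p ∣ K)

/-- **the dictionary**: a class of `J₀(K q q)[m]`, `q = 𝔓.p ∤ K`, `gcd(m, q) = 1`, which is fixed by the
inertia group and killed by the two push-forwards to the level `K q` is the Kummer class of a unit `y`
of the function field over the inertia field satisfying the four hypotheses of `T4nCoreAt 𝔓 K h` -/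
theorem mltj1_dict {m : ℕ} (hm : m ≠ 0) (hmq : Nat.Coprime m 𝔓.p)
    (x : JZero (K * 𝔓.p * 𝔓.p)) (hx : m • x = 0)
    (hI : ∀ σ ∈ 𝔓.I, σ • x = x)
    (hA : dlwPushA (K * 𝔓.p) 𝔓.p x = 0) (hB : dlwPushB (K * 𝔓.p) 𝔓.p x = 0) :
    ∃ y : (↥(tbLevF 𝔓 (K * 𝔓.p * 𝔓.p) ⊤))ˣ,
      y ∈ tWsub ↥(tbFix 𝔓 ⊤) (K * 𝔓.p * 𝔓.p) m ∧
      (∃ hy : ∀ P : Place Qb ↥(modularFunctionFieldBar (K * 𝔓.p * 𝔓.p)),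
          (m : ℤ) ∣ P.ord ((mltj1PhiU 𝔓 (K * 𝔓.p * 𝔓.p) y :
            (↥(modularFunctionFieldBar (K * 𝔓.p * 𝔓.p)))ˣ) :
              ↥(modularFunctionFieldBar (K * 𝔓.p * 𝔓.p))),
        alpfClass hm (mltj1PhiU 𝔓 (K * 𝔓.p * 𝔓.p) y) hy = x) ∧
      (∃ (c : ↥(tbFix 𝔓 ⊤)) (s : ↥(tbLevF 𝔓 (K * 𝔓.p) ⊤)), c ≠ 0 ∧ s ≠ 0 ∧
        t4nNormB ↥(tbFix 𝔓 ⊤) (K * 𝔓.p) 𝔓.p (y : ↥(tbLevF 𝔓 (K * 𝔓.p * 𝔓.p) ⊤)) = c • s ^ m) ∧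
      (∃ (c : ↥(tbFix 𝔓 ⊤)) (s : ↥(tbLevF 𝔓 (K * 𝔓.p) ⊤)), c ≠ 0 ∧ s ≠ 0 ∧
        t4nNormB ↥(tbFix 𝔓 ⊤) (K * 𝔓.p) 𝔓.p
          (t4wSq 𝔓 ⊤ K h (y : ↥(tbLevF 𝔓 (K * 𝔓.p * 𝔓.p) ⊤))) = c • s ^ m) := by
  haveI : Fact 𝔓.p.Prime := ⟨𝔓.hp⟩
  obtain ⟨y, hyW, hy, hcl⟩ := mltj1_descend 𝔓 (K * 𝔓.p * 𝔓.p) hm x hx hI
  have hprod : T4nProdB 𝔓 ⊤ (K * 𝔓.p) := t4vn_T4nProdB 𝔓 K h
  have hB' : dlwPushB (K * 𝔓.p) 𝔓.p (alpfClass hm (mltj1PhiU 𝔓 (K * 𝔓.p * 𝔓.p) y) hy) = 0 := by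
    rw [hcl]; exact hB
  have hA' : dlwPushA (K * 𝔓.p) 𝔓.p (alpfClass hm (mltj1PhiU 𝔓 (K * 𝔓.p * 𝔓.p) y) hy) = 0 := by
    rw [hcl]; exact hA
  obtain ⟨t₁, ht₁⟩ := mltj1_pushB K 𝔓.p h hm _ hy hB'
  obtain ⟨t₂, ht₂⟩ := mltj1_pushA K 𝔓.p h hm _ hy hA'
  refine ⟨y, hyW, ⟨hy, hcl⟩, ?_, ?_⟩
  · refine t4n_normB_eq_of_heckeU 𝔓 (K * 𝔓.p) hprod hm hmq
      (y : ↥(tbLevF 𝔓 (K * 𝔓.p * 𝔓.p) ⊤)) y.ne_zero ?_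
    refine ⟨(t₁ : ↥(modularFunctionFieldBar (K * 𝔓.p * 𝔓.p))), ?_⟩
    rw [← coe_mltj1PhiU, ← tkrHeckeUUnits_coe, ht₁, Units.val_pow_eq_pow_val]
  · have hwf := t4d_wU_tbPhiF 𝔓 ⊤ K h (t4g_lvl K 𝔓.p) (t4g_coprime K 𝔓.p h)
      (mltj1PhiU 𝔓 (K * 𝔓.p * 𝔓.p) y) (y : ↥(tbLevF 𝔓 (K * 𝔓.p * 𝔓.p) ⊤)) rfl
    have hwf0 : t4wSq 𝔓 ⊤ K h (y : ↥(tbLevF 𝔓 (K * 𝔓.p * 𝔓.p) ⊤)) ≠ 0 := by
      rw [Ne, map_eq_zero]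
      exact y.ne_zero
    refine t4n_normB_eq_of_heckeU 𝔓 (K * 𝔓.p) hprod hm hmq
      (t4wSq 𝔓 ⊤ K h (y : ↥(tbLevF 𝔓 (K * 𝔓.p * 𝔓.p) ⊤))) hwf0 ?_
    refine ⟨(t₂ : ↥(modularFunctionFieldBar (K * 𝔓.p * 𝔓.p))), ?_⟩
    rw [hwf, ← tkrHeckeUUnits_coe]
    have h2 : t4wU (K * 𝔓.p * 𝔓.p) K (𝔓.p * 𝔓.p) (t4g_lvl K 𝔓.p) (t4g_coprime K 𝔓.p h)
        (mltj1PhiU 𝔓 (K * 𝔓.p * 𝔓.p) y)
        = t4gWU K 𝔓.p h (mltj1PhiU 𝔓 (K * 𝔓.p * 𝔓.p) y) := rfl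
    rw [h2, ht₂, Units.val_pow_eq_pow_val]

end Main

section InstForm

variable (𝔓 : FFPlace) (K : ℕ) [NeZero K] (h : ¬ 𝔓.p ∣ K) {ζ : Qb} (hζ : IsPrimitiveRoot ζ 𝔓.p)

/-- **the dictionary, in the form consumed by steps A + B** (`t4n_stepAB_full` for the instance
`D = t4niAFix 𝔓 K h hζ m`): `N_α y` and `N_β y` are `constant × m`-th powers -/
theorem mltj1_dict_D {m : ℕ} (hm : m ≠ 0) (hmq : Nat.Coprime m 𝔓.p)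
    (x : JZero (K * 𝔓.p * 𝔓.p)) (hx : m • x = 0)
    (hI : ∀ σ ∈ 𝔓.I, σ • x = x)
    (hA : dlwPushA (K * 𝔓.p) 𝔓.p x = 0) (hB : dlwPushB (K * 𝔓.p) 𝔓.p x = 0) :
    ∃ y : (↥(tbLevF 𝔓 (K * 𝔓.p * 𝔓.p) ⊤))ˣ,
      y ∈ tWsub ↥(tbFix 𝔓 ⊤) (K * 𝔓.p * 𝔓.p) m ∧
      (∃ hy : ∀ P : Place Qb ↥(modularFunctionFieldBar (K * 𝔓.p * 𝔓.p)),
          (m : ℤ) ∣ P.ord ((mltj1PhiU 𝔓 (K * 𝔓.p * 𝔓.p) y :
            (↥(modularFunctionFieldBar (K * 𝔓.p * 𝔓.p)))ˣ) :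
              ↥(modularFunctionFieldBar (K * 𝔓.p * 𝔓.p))),
        alpfClass hm (mltj1PhiU 𝔓 (K * 𝔓.p * 𝔓.p) y) hy = x) ∧
      (∃ (c : (↥(tbFix 𝔓 (⊤ : Subgroup 𝔓.I)))ˣ) (g : (↥(tbLevF 𝔓 (K * 𝔓.p) ⊤))ˣ),
        (t4niAFix 𝔓 K h hζ m).Nα y = (t4niAFix 𝔓 K h hζ m).cF1 c * g ^ m) ∧
      (∃ (c : (↥(tbFix 𝔓 (⊤ : Subgroup 𝔓.I)))ˣ) (g : (↥(tbLevF 𝔓 (K * 𝔓.p) ⊤))ˣ),
        (t4niAFix 𝔓 K h hζ m).Nβ y = (t4niAFix 𝔓 K h hζ m).cF1 c * g ^ m) := by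
  obtain ⟨y, hyL, hyQ, hβ, hβw⟩ := mltj1_dict 𝔓 K h hm hmq x hx hI hA hB
  refine ⟨y, hyL, hyQ, ?_, ?_⟩
  · obtain ⟨c, s, hc, hs, hcs⟩ := hβw
    have h1 := t4n_normA_of_normB_wSq 𝔓 K h (y : ↥(tbLevF 𝔓 (K * 𝔓.p * 𝔓.p) ⊤)) c s m hcs
    have hws : (t2iALFix 𝔓 ⊤ K h).w s ≠ 0 := by
      rw [Ne, map_eq_zero]
      exact hs
    exact ⟨Units.mk0 c hc, Units.mk0 _ hws,
      t4n_smul_to_units ((t4niAFix 𝔓 K h hζ m).Nα y) ((t4niAFix 𝔓 K h hζ m).cF1 (Units.mk0 c hc))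
        c _ hws m rfl h1⟩
  · obtain ⟨c, s, hc, hs, hcs⟩ := hβ
    exact ⟨Units.mk0 c hc, Units.mk0 s hs,
      t4n_smul_to_units ((t4niAFix 𝔓 K h hζ m).Nβ y) ((t4niAFix 𝔓 K h hζ m).cF1 (Units.mk0 c hc))
        c s hs m rfl hcs⟩

/-- **the norm relations for ANY Kummer function of the class**: if the Kummer class of `y` (over the inertia
field) is killed by the two push-forwards then `N_α y` and `N_β y` are `constant × m`-th powers -/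
theorem mltj1_norms_D {m : ℕ} (hm : m ≠ 0) (hmq : Nat.Coprime m 𝔓.p)
    (y : (↥(tbLevF 𝔓 (K * 𝔓.p * 𝔓.p) ⊤))ˣ)
    (hy : ∀ P : Place Qb ↥(modularFunctionFieldBar (K * 𝔓.p * 𝔓.p)),
      (m : ℤ) ∣ P.ord ((mltj1PhiU 𝔓 (K * 𝔓.p * 𝔓.p) y :
        (↥(modularFunctionFieldBar (K * 𝔓.p * 𝔓.p)))ˣ) :
          ↥(modularFunctionFieldBar (K * 𝔓.p * 𝔓.p))))
    (hA : dlwPushA (K * 𝔓.p) 𝔓.p (alpfClass hm (mltj1PhiU 𝔓 (K * 𝔓.p * 𝔓.p) y) hy) = 0)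
    (hB : dlwPushB (K * 𝔓.p) 𝔓.p (alpfClass hm (mltj1PhiU 𝔓 (K * 𝔓.p * 𝔓.p) y) hy) = 0) :
    (∃ (c : (↥(tbFix 𝔓 (⊤ : Subgroup 𝔓.I)))ˣ) (g : (↥(tbLevF 𝔓 (K * 𝔓.p) ⊤))ˣ),
        (t4niAFix 𝔓 K h hζ m).Nα y = (t4niAFix 𝔓 K h hζ m).cF1 c * g ^ m) ∧
      (∃ (c : (↥(tbFix 𝔓 (⊤ : Subgroup 𝔓.I)))ˣ) (g : (↥(tbLevF 𝔓 (K * 𝔓.p) ⊤))ˣ),
        (t4niAFix 𝔓 K h hζ m).Nβ y = (t4niAFix 𝔓 K h hζ m).cF1 c * g ^ m) := by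
  haveI : Fact 𝔓.p.Prime := ⟨𝔓.hp⟩
  have hprod : T4nProdB 𝔓 ⊤ (K * 𝔓.p) := t4vn_T4nProdB 𝔓 K h
  obtain ⟨t₁, ht₁⟩ := mltj1_pushB K 𝔓.p h hm _ hy hB
  obtain ⟨t₂, ht₂⟩ := mltj1_pushA K 𝔓.p h hm _ hy hA
  have hβ : ∃ (c : ↥(tbFix 𝔓 ⊤)) (s : ↥(tbLevF 𝔓 (K * 𝔓.p) ⊤)), c ≠ 0 ∧ s ≠ 0 ∧
      t4nNormB ↥(tbFix 𝔓 ⊤) (K * 𝔓.p) 𝔓.p (y : ↥(tbLevF 𝔓 (K * 𝔓.p * 𝔓.p) ⊤)) = c • s ^ m := by
    refine t4n_normB_eq_of_heckeU 𝔓 (K * 𝔓.p) hprod hm hmq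
      (y : ↥(tbLevF 𝔓 (K * 𝔓.p * 𝔓.p) ⊤)) y.ne_zero ?_
    refine ⟨(t₁ : ↥(modularFunctionFieldBar (K * 𝔓.p * 𝔓.p))), ?_⟩
    rw [← coe_mltj1PhiU, ← tkrHeckeUUnits_coe, ht₁, Units.val_pow_eq_pow_val]
  have hβw : ∃ (c : ↥(tbFix 𝔓 ⊤)) (s : ↥(tbLevF 𝔓 (K * 𝔓.p) ⊤)), c ≠ 0 ∧ s ≠ 0 ∧
      t4nNormB ↥(tbFix 𝔓 ⊤) (K * 𝔓.p) 𝔓.p
        (t4wSq 𝔓 ⊤ K h (y : ↥(tbLevF 𝔓 (K * 𝔓.p * 𝔓.p) ⊤))) = c • s ^ m := by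
    have hwf := t4d_wU_tbPhiF 𝔓 ⊤ K h (t4g_lvl K 𝔓.p) (t4g_coprime K 𝔓.p h)
      (mltj1PhiU 𝔓 (K * 𝔓.p * 𝔓.p) y) (y : ↥(tbLevF 𝔓 (K * 𝔓.p * 𝔓.p) ⊤)) rfl
    have hwf0 : t4wSq 𝔓 ⊤ K h (y : ↥(tbLevF 𝔓 (K * 𝔓.p * 𝔓.p) ⊤)) ≠ 0 := by
      rw [Ne, map_eq_zero]
      exact y.ne_zero
    refine t4n_normB_eq_of_heckeU 𝔓 (K * 𝔓.p) hprod hm hmq
      (t4wSq 𝔓 ⊤ K h (y : ↥(tbLevF 𝔓 (K * 𝔓.p * 𝔓.p) ⊤))) hwf0 ?_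
    refine ⟨(t₂ : ↥(modularFunctionFieldBar (K * 𝔓.p * 𝔓.p))), ?_⟩
    rw [hwf, ← tkrHeckeUUnits_coe]
    have h2 : t4wU (K * 𝔓.p * 𝔓.p) K (𝔓.p * 𝔓.p) (t4g_lvl K 𝔓.p) (t4g_coprime K 𝔓.p h)
        (mltj1PhiU 𝔓 (K * 𝔓.p * 𝔓.p) y)
        = t4gWU K 𝔓.p h (mltj1PhiU 𝔓 (K * 𝔓.p * 𝔓.p) y) := rfl
    rw [h2, ht₂, Units.val_pow_eq_pow_val]
  refine ⟨?_, ?_⟩
  · obtain ⟨c, s, hc, hs, hcs⟩ := hβw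
    have h1 := t4n_normA_of_normB_wSq 𝔓 K h (y : ↥(tbLevF 𝔓 (K * 𝔓.p * 𝔓.p) ⊤)) c s m hcs
    have hws : (t2iALFix 𝔓 ⊤ K h).w s ≠ 0 := by
      rw [Ne, map_eq_zero]
      exact hs
    exact ⟨Units.mk0 c hc, Units.mk0 _ hws,
      t4n_smul_to_units ((t4niAFix 𝔓 K h hζ m).Nα y) ((t4niAFix 𝔓 K h hζ m).cF1 (Units.mk0 c hc))
        c _ hws m rfl h1⟩
  · obtain ⟨c, s, hc, hs, hcs⟩ := hβ
    exact ⟨Units.mk0 c hc, Units.mk0 s hs,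
      t4n_smul_to_units ((t4niAFix 𝔓 K h hζ m).Nβ y) ((t4niAFix 𝔓 K h hζ m).cF1 (Units.mk0 c hc))
        c s hs m rfl hcs⟩

end InstForm

end Fermat.Agent.MLT
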